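import Fermat.Agent.Root.SummaryBorelDeterminacy
import Fermat.Agent.SilverDichotomy.GZero

/-!
# Wadge games and Martin's argument

Winning strategies in the game of Wadge give Lipschitz reductions or contracting ones. A sequence
of contractions indexed by Cantor space gives the theorem of Martin and Monk.
-/

set_option autoImplicit false

namespace FA.Wadge

open Set Topology MeasureTheory FA.Determinacy

/-- `A` is Wadge reducible to `B`. -/
def WadgeLE (A B : Set (ℕ → ℕ)) : Prop :=
  ∃ f : (ℕ → ℕ) → ℕ → ℕ, Continuous f ∧ f ⁻¹' B = A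

theorem wadgeLE_refl (A : Set (ℕ → ℕ)) : WadgeLE A A :=
  ⟨id, continuous_id, rfl⟩

theorem WadgeLE.trans {A B C : Set (ℕ → ℕ)} (h : WadgeLE A B) (h' : WadgeLE B C) :
    WadgeLE A C := by
  obtain ⟨f, hf, rfl⟩ := h
  obtain ⟨g, hg, rfl⟩ := h'
  exact ⟨g ∘ f, hg.comp hf, rfl⟩

theorem WadgeLE.compl {A B : Set (ℕ → ℕ)} (h : WadgeLE A B) : WadgeLE Aᶜ Bᶜ := by
  obtain ⟨f, hf, rfl⟩ := h
  exact ⟨f, hf, rfl⟩

/-- The first `n + 1` values of the argument decide the value at `n`. -/
def IsLipschitzMap (f : (ℕ → ℕ) → ℕ → ℕ) : Prop :=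
  ∀ x x' n, (∀ i ≤ n, x i = x' i) → f x n = f x' n

/-- The first `n` values of the argument decide the value at `n`. -/
def IsContracting (f : (ℕ → ℕ) → ℕ → ℕ) : Prop :=
  ∀ x x' n, (∀ i < n, x i = x' i) → f x n = f x' n

/-- `A` is Lipschitz reducible to `B`. -/
def LipschitzLE (A B : Set (ℕ → ℕ)) : Prop :=
  ∃ f : (ℕ → ℕ) → ℕ → ℕ, IsLipschitzMap f ∧ f ⁻¹' B = A

theorem IsContracting.isLipschitzMap {f : (ℕ → ℕ) → ℕ → ℕ} (h : IsContracting f) :
    IsLipschitzMap f :=
  fun x x' n hxx' => h x x' n fun i hi => hxx' i hi.le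

theorem IsLipschitzMap.continuous {f : (ℕ → ℕ) → ℕ → ℕ} (h : IsLipschitzMap f) :
    Continuous f :=
  continuous_pi fun n => continuous_discrete_rng.2 fun _ => isOpen_iff_mem_nhds.2 fun x hx =>
    Filter.mem_of_superset
      ((PiNat.isOpen_cylinder (fun _ : ℕ => ℕ) x (n + 1)).mem_nhds (PiNat.self_mem_cylinder x _))
      fun y hy => (h y x n fun i hi => hy i (Nat.lt_succ_of_le hi)).trans hx

theorem LipschitzLE.wadgeLE {A B : Set (ℕ → ℕ)} (h : LipschitzLE A B) : WadgeLE A B :=
  h.imp fun _ hf => ⟨hf.1.continuous, hf.2⟩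

theorem LipschitzLE.trans {A B C : Set (ℕ → ℕ)} (h : LipschitzLE A B) (h' : LipschitzLE B C) :
    LipschitzLE A C := by
  obtain ⟨f, hf, rfl⟩ := h
  obtain ⟨g, hg, rfl⟩ := h'
  exact ⟨g ∘ f, fun x x' n hx => hg _ _ n fun i hi => hf x x' i fun j hj => hx j (hj.trans hi),
    rfl⟩

theorem LipschitzLE.compl {A B : Set (ℕ → ℕ)} (h : LipschitzLE A B) : LipschitzLE Aᶜ Bᶜ := by
  obtain ⟨f, hf, rfl⟩ := h
  exact ⟨f, hf, rfl⟩

open Classical in
/-- The position after `n` moves of the strategy `σ` against the moves `w`. -/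
noncomputable def history (σ : List ℕ → ℕ) (P : Bool) (w : ℕ → ℕ) : ℕ → List ℕ
  | 0 => []
  | n + 1 => history σ P w n ++ [if Moves P n then σ (history σ P w n) else w (n / 2)]

open Classical in
/-- The play of the strategy `σ` against the moves `w`. -/
noncomputable def play (σ : List ℕ → ℕ) (P : Bool) (w : ℕ → ℕ) (n : ℕ) : ℕ :=
  if Moves P n then σ (history σ P w n) else w (n / 2)

theorem history_eq (σ : List ℕ → ℕ) (P : Bool) (w : ℕ → ℕ) (n : ℕ) :
    history σ P w n = (List.range n).map (play σ P w) := by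
  induction n with
  | zero => simp [history]
  | succ n ih =>
    rw [List.range_succ, List.map_append, ← ih]
    rfl

theorem history_congr (σ : List ℕ → ℕ) (P : Bool) {w w' : ℕ → ℕ} (n : ℕ)
    (h : ∀ m < n, ¬Moves P m → w (m / 2) = w' (m / 2)) :
    history σ P w n = history σ P w' n := by
  induction n with
  | zero => rfl
  | succ n ih =>
    have ih := ih fun m hm => h m (Nat.lt_succ_of_lt hm)
    simp only [history, ih]
    split_ifs with hn
    · rfl
    · rw [h n (Nat.lt_succ_self n) hn]

theorem play_congr (σ : List ℕ → ℕ) (P : Bool) {w w' : ℕ → ℕ} (n : ℕ)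
    (h : ∀ m ≤ n, ¬Moves P m → w (m / 2) = w' (m / 2)) : play σ P w n = play σ P w' n := by
  unfold play
  rw [history_congr σ P n fun m hm => h m hm.le]
  split_ifs with hn
  · rfl
  · exact h n le_rfl hn

theorem play_follows (σ : List ℕ → ℕ) (P : Bool) (w : ℕ → ℕ) (n : ℕ) (hn : Moves P n) :
    play σ P w n = σ ((List.range n).map (play σ P w)) := by
  rw [← history_eq]
  exact if_pos hn

/-- **The game of Wadge.** The second player gives a Lipschitz reduction of `A` to `B`, the first
a contracting reduction of `Bᶜ` to `A`. -/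
theorem lipschitz_or_contracting {A B : Set (ℕ → ℕ)} (hA : MeasurableSet A)
    (hB : MeasurableSet B) :
    LipschitzLE A B ∨ ∃ g, IsContracting g ∧ g ⁻¹' A = Bᶜ := by
  let ev : (ℕ → ℕ) → ℕ → ℕ := fun z k => z (2 * k)
  let od : (ℕ → ℕ) → ℕ → ℕ := fun z k => z (2 * k + 1)
  have hev : Measurable ev := measurable_pi_lambda _ fun k => measurable_pi_apply (2 * k)
  have hod : Measurable od := measurable_pi_lambda _ fun k => measurable_pi_apply (2 * k + 1)
  have hX : MeasurableSet (symmDiff (ev ⁻¹' A) (od ⁻¹' B)) :=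
    ((hev hA).diff (hod hB)).union ((hod hB).diff (hev hA))
  obtain ⟨P, σ, hwin⟩ := borel_determinacy_baire hX
  have hval : ∀ w : ℕ → ℕ,
      (play σ P w ∈ symmDiff (ev ⁻¹' A) (od ⁻¹' B) ↔ P = true) := fun w =>
    hwin _ fun n hn => play_follows σ P w n hn
  cases P with
  | false =>
    refine .inl ⟨fun x k => play σ false x (2 * k + 1), fun x x' n h => ?_, ?_⟩
    · exact play_congr σ false _ fun m hm _ => h _ (by omega)
    · ext x
      have h1 : ev (play σ false x) = x := funext fun k => by
        have : ¬Moves false (2 * k) := by simp [Moves]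
        simp [ev, play, this]
      have := hval x
      simp only [mem_symmDiff, mem_preimage, h1, Bool.false_eq_true, iff_false] at this
      change od (play σ false x) ∈ B ↔ x ∈ A
      tauto
  | true =>
    refine .inr ⟨fun y k => play σ true y (2 * k), fun y y' n h => ?_, ?_⟩
    · refine play_congr σ true _ fun m hm hmv => h _ ?_
      have hodd : ¬Even m := by simpa [Moves] using hmv
      obtain ⟨j, rfl⟩ := Nat.not_even_iff_odd.1 hodd
      omega
    · ext y
      have h1 : od (play σ true y) = y := funext fun k => by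
        have : ¬Moves true (2 * k + 1) := by simp [Moves]
        simp only [od, play, this, if_false]
        congr 1
        omega
      have := hval y
      simp only [mem_symmDiff, mem_preimage, h1, iff_true] at this
      change ev (play σ true y) ∈ A ↔ y ∈ Bᶜ
      rw [mem_compl_iff]
      tauto

/-- The `k`-th approximation of the tower of contractions. -/
def tower (g : ℕ → Bool → (ℕ → ℕ) → ℕ → ℕ) (e : ℕ → Bool) : ℕ → ℕ → ℕ → ℕ
  | 0, _ => fun _ => 0
  | k + 1, n => g n (e n) (tower g e k (n + 1))

/-- The limit of the tower at level `n`. -/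
def towerLimit (g : ℕ → Bool → (ℕ → ℕ) → ℕ → ℕ) (e : ℕ → Bool) (n k : ℕ) : ℕ :=
  tower g e (k + 1) n k

variable {g : ℕ → Bool → (ℕ → ℕ) → ℕ → ℕ}

theorem tower_stable (hg : ∀ n b, IsContracting (g n b)) (e : ℕ → Bool) {k m : ℕ} (hkm : k ≤ m)
    (n : ℕ) {i : ℕ} (hi : i < k) : tower g e k n i = tower g e m n i := by
  induction k generalizing m n i with
  | zero => exact absurd hi (Nat.not_lt_zero i)
  | succ k ih =>
    obtain ⟨m, rfl⟩ : ∃ m', m = m' + 1 := ⟨m - 1, by omega⟩
    exact hg n (e n) _ _ i fun j hj => ih (by omega) (n + 1) (by omega)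

theorem towerLimit_eq (hg : ∀ n b, IsContracting (g n b)) (e : ℕ → Bool) (n : ℕ) :
    towerLimit g e n = g n (e n) (towerLimit g e (n + 1)) :=
  funext fun k => hg n (e n) _ _ k fun i hi =>
    (tower_stable hg e (by omega) (n + 1) (Nat.lt_succ_self i)).symm

theorem tower_congr (g : ℕ → Bool → (ℕ → ℕ) → ℕ → ℕ) {e e' : ℕ → Bool} (k n : ℕ)
    (h : ∀ i, n ≤ i → e i = e' i) : tower g e k n = tower g e' k n := by
  induction k generalizing n with
  | zero => rfl
  | succ k ih => rw [tower, tower, h n le_rfl, ih (n + 1) fun i hi => h i (by omega)]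

theorem continuous_tower (hg : ∀ n b, IsContracting (g n b)) (k n : ℕ) :
    Continuous fun e => tower g e k n := by
  induction k generalizing n with
  | zero => exact continuous_const
  | succ k ih =>
    have hc : Continuous fun p : Bool × (ℕ → ℕ) => g n p.1 p.2 :=
      continuous_prod_of_discrete_left.2 fun b => (hg n b).isLipschitzMap.continuous
    exact hc.comp ((continuous_apply n).prodMk (ih (n + 1)))

/-- **Martin's argument.** No sequence of Borel sets is linked by both kinds of contraction. -/
theorem no_double_contraction {A : ℕ → Set (ℕ → ℕ)} (hA : MeasurableSet (A 0))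
    (h : ∀ n, ∀ b : Bool, ∃ g, IsContracting g ∧
      g ⁻¹' A n = cond b (A (n + 1)) (A (n + 1))ᶜ) : False := by
  choose g hg hgA using h
  let X : Set (ℕ → Bool) := {e | towerLimit g e 0 ∈ A 0}
  have hcont : Continuous fun e => towerLimit g e 0 :=
    continuous_pi fun k => (continuous_apply k).comp (continuous_tower hg (k + 1) 0)
  have hX : MeasurableSet X := hcont.measurable hA
  have hstep : ∀ e j, towerLimit g e j ∈ A j ↔
      (if e j then towerLimit g e (j + 1) ∈ A (j + 1) else towerLimit g e (j + 1) ∉ A (j + 1)) := by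
    intro e j
    rw [towerLimit_eq hg e j, ← mem_preimage (f := g j (e j)), hgA]
    cases e j <;> simp
  have hflip : ∀ x y, SilverDichotomy.gZero x y → (x ∈ X ↔ y ∉ X) := by
    rintro x y ⟨n, hlow, hxn, hyn, hhigh⟩
    have hlim : towerLimit g x (n + 1) = towerLimit g y (n + 1) := funext fun k => by
      simp only [towerLimit]
      rw [tower_congr g (k + 1) (n + 1) fun i hi => hhigh i (by omega)]
    have key : ∀ d j, j + d = n → (towerLimit g x j ∈ A j ↔ towerLimit g y j ∉ A j) := by
      intro d
      induction d with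
      | zero =>
        intro j hj
        obtain rfl : j = n := by omega
        rw [hstep x j, hstep y j, hxn, hyn, hlim]
        simp
      | succ d ih =>
        intro j hj
        have := ih (j + 1) (by omega)
        rw [hstep x j, hstep y j, (hlow j (by omega)).1, (hlow j (by omega)).2]
        cases SilverDichotomy.denseWord n j <;>
          simp only [if_true, Bool.false_eq_true, if_false] <;> tauto
    exact key n 0 (Nat.zero_add n)
  have h1 : IsMeagre X := SilverDichotomy.isMeagre_of_gZero_independent hX.baireMeasurableSet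
    fun x hx y hy hxy => (hflip x y hxy).1 hx hy
  have h2 : IsMeagre Xᶜ := SilverDichotomy.isMeagre_of_gZero_independent
    hX.compl.baireMeasurableSet fun x hx y hy hxy => hx ((hflip x y hxy).2 hy)
  exact SilverDichotomy.not_isMeagre_of_isOpen (X := ℕ → Bool) isOpen_univ univ_nonempty
    (union_compl_self X ▸ SilverDichotomy.isMeagre_union_pair h1 h2)

end FA.Wadge
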